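import Mathlib

/-!
# Thaine relation: statement

`K` a `p`-th cyclotomic field, `zeta : 𝓞 K` a primitive `p`-th root of unity, `q ≡ 1 mod p` a
prime, `g` a primitive root modulo `q`.  For exponent families `nP nM : ℕ → ℕ` put
`A = ∏_{0<a<p} (1 - zeta^a)^(nP a)` and `B = ∏_{0<a<p} (1 - zeta^a)^(nM a)`.  Then there are
exponents `r Q` with `A ≡ g^(r Q) * B` modulo every prime `Q ∣ q`, such that
`∏_{Q ∣ q} Q^(r Q)` times a `(q-1)`-th power of an ideal is principal.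
-/

open NumberField

namespace Fermat.Agent.S14.Thaine.Relation

/-- The product `∏_{0<a<p} (1 - zeta^a)^(n a)` in `𝓞 K`. -/
noncomputable def xiProd (p : ℕ) {K : Type} [Field K] (zeta : 𝓞 K) (n : ℕ → ℕ) : 𝓞 K :=
  ∏ a ∈ Finset.Ioo 0 p, (1 - zeta ^ a) ^ n a

/-- Thaine's relation, ideal form. -/
def RelationStmt (p : ℕ) [Fact p.Prime] : Prop :=
  ∀ (K : Type) [Field K] [NumberField K] [IsCyclotomicExtension {p} ℚ K] (zeta : 𝓞 K),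
    IsPrimitiveRoot zeta p → ∀ q : ℕ, q.Prime → p ∣ q - 1 →
    ∀ g : ℤ, orderOf (g : ZMod q) = q - 1 → ∀ nP nM : ℕ → ℕ,
    ∃ (r : Ideal (𝓞 K) → ℕ) (𝔠 : Ideal (𝓞 K)) (b : 𝓞 K), 𝔠 ≠ ⊥ ∧ b ≠ 0 ∧
      (∀ Q : Ideal (𝓞 K), Q.IsPrime → (q : 𝓞 K) ∈ Q →
        xiProd p zeta nP - (g : 𝓞 K) ^ r Q * xiProd p zeta nM ∈ Q) ∧
      ∀ S : Finset (Ideal (𝓞 K)), (∀ Q, Q ∈ S ↔ Q.IsPrime ∧ (q : 𝓞 K) ∈ Q) →
        Ideal.span {b} = 𝔠 ^ (q - 1) * ∏ Q ∈ S, Q ^ r Q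

end Fermat.Agent.S14.Thaine.Relation
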