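import Mathlib
import Fermat.Agent.S14.Thaine.Relation.Stmt

/-!
# Thaine relation, part 1: the field `F = K(ζ_q)`, norm-one units, Hilbert 90

`K` is a `p`-th cyclotomic field, `F` a `q`-th cyclotomic extension of `K`, `p ≠ q` primes.
-/

open NumberField Polynomial

namespace Fermat.Agent.S14.Thaine.Relation

section Field

variable (p q : ℕ) [hp : Fact p.Prime] [hq : Fact q.Prime] (K F : Type) [Field K] [NumberField K]
  [IsCyclotomicExtension {p} ℚ K] [Field F] [NumberField F] [Algebra K F]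
  [IsCyclotomicExtension {q} K F]

include K in
theorem isCyclotomicExtension_mul (hpq : p ≠ q) : IsCyclotomicExtension {p * q} ℚ F := by
  have h1 : IsCyclotomicExtension ({p} ∪ {q}) ℚ F :=
    IsCyclotomicExtension.trans {p} {q} ℚ K F (algebraMap K F).injective
  obtain ⟨ζp, hζp⟩ := IsCyclotomicExtension.exists_isPrimitiveRoot ℚ K (S := {p}) rfl
    hp.out.ne_zero
  obtain ⟨ζq, hζq⟩ := IsCyclotomicExtension.exists_isPrimitiveRoot K F (S := {q}) rfl
    hq.out.ne_zero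
  have hζp' := hζp.map_of_injective (algebraMap K F).injective
  have hcop : Nat.Coprime p q := (Nat.coprime_primes hp.out hq.out).2 hpq
  have hμ := hζp'.pow_mul_pow_lcm hζq hp.out.ne_zero hq.out.ne_zero
  rw [hcop.lcm_eq_mul] at hμ
  rw [IsCyclotomicExtension.iff_adjoin_eq_top]
  refine ⟨fun s hs _ => ?_, ?_⟩
  · rw [Set.mem_singleton_iff] at hs
    subst hs
    exact ⟨_, hμ⟩
  · rw [eq_top_iff, ← ((IsCyclotomicExtension.iff_adjoin_eq_top _ ℚ F).1 h1).2]
    apply Algebra.adjoin_mono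
    rintro b ⟨a, ha, _, hb⟩
    refine ⟨p * q, rfl, Nat.mul_ne_zero hp.out.ne_zero hq.out.ne_zero, ?_⟩
    rcases ha with ha | ha
    · rw [Set.mem_singleton_iff] at ha
      subst ha
      rw [pow_mul, hb, one_pow]
    · rw [Set.mem_singleton_iff] at ha
      subst ha
      rw [mul_comm, pow_mul, hb, one_pow]

theorem finrank_eq (hpq : p ≠ q) : Module.finrank K F = q - 1 := by
  have h1 := isCyclotomicExtension_mul p q K F hpq
  have hpq0 : NeZero (p * q) := ⟨Nat.mul_ne_zero hp.out.ne_zero hq.out.ne_zero⟩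
  have hp0 : NeZero p := ⟨hp.out.ne_zero⟩
  have h2 : Module.finrank ℚ F = (p * q).totient := IsCyclotomicExtension.Rat.finrank (p * q) F
  have h3 : Module.finrank ℚ K = p.totient := IsCyclotomicExtension.Rat.finrank p K
  have hcop : Nat.Coprime p q := (Nat.coprime_primes hp.out hq.out).2 hpq
  rw [Nat.totient_mul hcop, Nat.totient_prime hp.out, Nat.totient_prime hq.out] at h2
  rw [Nat.totient_prime hp.out] at h3
  have h4 := Module.finrank_mul_finrank ℚ K F
  rw [h2, h3] at h4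
  have hp1 : 0 < p - 1 := Nat.sub_pos_of_lt hp.out.one_lt
  exact Nat.eq_of_mul_eq_mul_left hp1 h4

theorem card_gal (hpq : p ≠ q) : Nat.card (F ≃ₐ[K] F) = q - 1 := by
  have : IsGalois K F := IsCyclotomicExtension.isGalois {q} K F
  rw [IsGalois.card_aut_eq_finrank, finrank_eq p q K F hpq]

omit hp in
theorem card_units_zmod : Nat.card (ZMod q)ˣ = q - 1 := by
  rw [Nat.card_eq_fintype_card, ZMod.card_units_eq_totient, Nat.totient_prime hq.out]

variable {q F} in
theorem autToPow_bijective (hpq : p ≠ q) {zq : F} (hzq : IsPrimitiveRoot zq q) :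
    Function.Bijective (hzq.autToPow K) := by
  have hinj := hzq.autToPow_injective K
  have : Finite (F ≃ₐ[K] F) := inferInstance
  refine (Nat.bijective_iff_injective_and_card _).2 ⟨hinj, ?_⟩
  rw [card_gal p q K F hpq, card_units_zmod q]

variable {q F} in
/-- A generator `τ` of `Gal(F/K)` with `τ ζ_q = ζ_q ^ g`, for `g` a primitive root mod `q`. -/
theorem exists_generator (hpq : p ≠ q) {zq : F} (hzq : IsPrimitiveRoot zq q) (g : ℤ)
    (hg : orderOf (g : ZMod q) = q - 1) :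
    ∃ τ : F ≃ₐ[K] F, τ zq = zq ^ (g : ZMod q).val ∧
      ∀ σ : F ≃ₐ[K] F, σ ∈ Subgroup.zpowers τ := by
  have hq1 : 0 < q - 1 := Nat.sub_pos_of_lt hq.out.one_lt
  have hg0 : (g : ZMod q) ≠ 0 := by
    intro h
    rw [h, orderOf_eq_zero_iff.2 (by
      intro hfin
      obtain ⟨n, hn, hn'⟩ := hfin.exists_pow_eq_one
      rw [zero_pow hn.ne'] at hn'
      exact zero_ne_one hn')] at hg
    omega
  obtain ⟨τ, hτ⟩ := (autToPow_bijective p K hpq hzq).2 (Units.mk0 (g : ZMod q) hg0)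
  refine ⟨τ, ?_, ?_⟩
  · rw [← hzq.autToPow_spec K τ, hτ, Units.val_mk0]
  · have hord : orderOf τ = q - 1 := by
      rw [← orderOf_injective (hzq.autToPow K) (autToPow_bijective p K hpq hzq).1 τ, hτ,
        ← orderOf_units, Units.val_mk0, hg]
    have htop : Subgroup.zpowers τ = ⊤ := by
      rw [← Subgroup.card_eq_iff_eq_top, Nat.card_zpowers, hord, card_gal p q K F hpq]
    intro σ
    rw [htop]
    exact Subgroup.mem_top σ

omit [NumberField K] [IsCyclotomicExtension {p} ℚ K] [NumberField F] hp in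
variable {q F} in
theorem apply_injective {zq : F} (hzq : IsPrimitiveRoot zq q) :
    Function.Injective (fun σ : F ≃ₐ[K] F => σ zq) := by
  intro σ σ' h
  have h' : zq ^ (hzq.autToPow K σ : ZMod q).val = zq ^ (hzq.autToPow K σ' : ZMod q).val := by
    rw [hzq.autToPow_spec K σ, hzq.autToPow_spec K σ']
    exact h
  have h'' := hzq.pow_inj (ZMod.val_lt _) (ZMod.val_lt _) h'
  exact hzq.autToPow_injective K (Units.ext (ZMod.val_injective q h''))

variable {q F} in
theorem prod_aut_eq (hpq : p ≠ q) {zq : F} (hzq : IsPrimitiveRoot zq q) (f : F → F) :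
    ∏ σ : F ≃ₐ[K] F, f (σ zq) = ∏ μ ∈ primitiveRoots q F, f μ := by
  classical
  have hinj := apply_injective K hzq
  have himg : Finset.univ.image (fun σ : F ≃ₐ[K] F => σ zq) = primitiveRoots q F := by
    apply Finset.eq_of_subset_of_card_le
    · intro μ hμ
      obtain ⟨σ, -, rfl⟩ := Finset.mem_image.1 hμ
      rw [mem_primitiveRoots hq.out.pos]
      exact hzq.map_of_injective σ.injective
    · rw [Finset.card_image_of_injective _ hinj, Finset.card_univ, hzq.card_primitiveRoots,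
        Nat.totient_prime hq.out, ← Nat.card_eq_fintype_card, card_gal p q K F hpq]
  rw [← himg, Finset.prod_image (fun σ _ σ' _ h => hinj h)]

variable {q F} in
/-- `N_{F/K}(1 - x ζ_q) = 1` for a `p`-th root of unity `x ≠ 1` of `K`, when `q ≡ 1 mod p`. -/
theorem norm_one_sub_mul (hpq : p ≠ q) (hdvd : p ∣ q - 1) {zq : F} (hzq : IsPrimitiveRoot zq q)
    (x : K) (hx : x ^ p = 1) (hx1 : x ≠ 1) :
    Algebra.norm K (1 - algebraMap K F x * zq) = 1 := by
  have : IsGalois K F := IsCyclotomicExtension.isGalois {q} K F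
  apply (algebraMap K F).injective
  rw [Algebra.norm_eq_prod_automorphisms, map_one]
  simp only [map_sub, map_one, map_mul, AlgEquiv.commutes]
  rw [prod_aut_eq p K hpq hzq (fun μ => 1 - algebraMap K F x * μ)]
  set x' := algebraMap K F x with hx'def
  have hx' : x' ^ p = 1 := by rw [hx'def, ← map_pow, hx, map_one]
  have hx'1 : x' ≠ 1 := fun h => hx1 ((algebraMap K F).injective (by rw [← hx'def, h, map_one]))
  obtain ⟨k, hk⟩ := hdvd
  have hxq1 : x' ^ (q - 1) = 1 := by rw [hk, pow_mul, hx', one_pow]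
  have hxq : x' ^ q = x' := by
    conv_lhs => rw [← Nat.sub_add_cancel hq.out.one_le, pow_succ, hxq1, one_mul]
  have hx0 : x' ≠ 0 := by
    intro h
    rw [h, zero_pow hp.out.ne_zero] at hx'
    exact zero_ne_one hx'
  have h1 : ∀ μ : F, 1 - x' * μ = x' * (x'⁻¹ - μ) := by
    intro μ
    field_simp
  simp_rw [h1]
  rw [Finset.prod_mul_distrib, Finset.prod_const, hzq.card_primitiveRoots,
    Nat.totient_prime hq.out, hxq1, one_mul]
  have h2 : (cyclotomic q F).eval x'⁻¹ = ∏ μ ∈ primitiveRoots q F, (x'⁻¹ - μ) := by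
    rw [cyclotomic_eq_prod_X_sub_primitiveRoots hzq, eval_prod]
    simp
  rw [← h2]
  have h3 := congrArg (eval x'⁻¹) (cyclotomic_prime_mul_X_sub_one F q)
  simp only [eval_mul, eval_sub, eval_X, eval_one, eval_pow] at h3
  have h4 : x'⁻¹ ^ q = x'⁻¹ := by rw [inv_pow, hxq]
  rw [h4] at h3
  have h5 : x'⁻¹ - 1 ≠ 0 := by
    intro h
    apply hx'1
    have : x'⁻¹ = 1 := sub_eq_zero.1 h
    rw [← inv_inv x', this, inv_one]
  exact mul_right_cancel₀ h5 (by rw [h3, one_mul])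

variable {q F} in
theorem norm_one_sub_mul_int (hpq : p ≠ q) (hdvd : p ∣ q - 1) {zq : 𝓞 F}
    (hzq : IsPrimitiveRoot zq q) (x : 𝓞 K) (hx : x ^ p = 1) (hx1 : x ≠ 1) :
    Algebra.norm K (algebraMap (𝓞 F) F (1 - algebraMap (𝓞 K) (𝓞 F) x * zq)) = 1 := by
  have hzq' : IsPrimitiveRoot (algebraMap (𝓞 F) F zq) q :=
    hzq.map_of_injective (FaithfulSMul.algebraMap_injective (𝓞 F) F)
  have h := norm_one_sub_mul p K hpq hdvd hzq' (algebraMap (𝓞 K) K x)
    (by rw [← map_pow, hx, map_one])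
    (fun h => hx1 (FaithfulSMul.algebraMap_injective (𝓞 K) K (by rw [h, map_one])))
  rw [← h, map_sub, map_one, map_mul, ← IsScalarTower.algebraMap_apply (𝓞 K) (𝓞 F) F,
    IsScalarTower.algebraMap_apply (𝓞 K) K F]

variable {q F} in
/-- `1 - x ζ_q` is a unit of `𝓞 F`. -/
theorem isUnit_one_sub_mul (hpq : p ≠ q) (hdvd : p ∣ q - 1) {zq : 𝓞 F}
    (hzq : IsPrimitiveRoot zq q) (x : 𝓞 K) (hx : x ^ p = 1) (hx1 : x ≠ 1) :
    IsUnit (1 - algebraMap (𝓞 K) (𝓞 F) x * zq) := by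
  have h := Algebra.dvd_algebraMap_intNorm_self (A := 𝓞 K) (B := 𝓞 F)
    (1 - algebraMap (𝓞 K) (𝓞 F) x * zq)
  have h2 : Algebra.intNorm (𝓞 K) (𝓞 F) (1 - algebraMap (𝓞 K) (𝓞 F) x * zq) = 1 := by
    apply FaithfulSMul.algebraMap_injective (𝓞 K) K
    rw [Algebra.algebraMap_intNorm (L := F), map_one]
    exact norm_one_sub_mul_int p K hpq hdvd hzq x hx hx1
  rw [h2, map_one] at h
  exact isUnit_of_dvd_one h

end Field

section Hilbert

variable {K F : Type} [Field K] [NumberField K] [Field F] [NumberField F] [Algebra K F]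
  [IsGalois K F]

/-- Hilbert 90 over the rings of integers, oriented as `τ β = D * β`. -/
theorem exists_hilbert90 (τ : F ≃ₐ[K] F) (hτ : ∀ σ : F ≃ₐ[K] F, σ ∈ Subgroup.zpowers τ)
    (D : (𝓞 F)ˣ) (hD : Algebra.norm K (algebraMap (𝓞 F) F (D : 𝓞 F)) = 1) :
    ∃ β : 𝓞 F, β ≠ 0 ∧ galRestrict (𝓞 K) K F (𝓞 F) τ β = D * β := by
  have : IsCyclic (F ≃ₐ[K] F) := ⟨⟨τ, hτ⟩⟩
  have hD' : Algebra.norm K (algebraMap (𝓞 F) F ((D⁻¹ : (𝓞 F)ˣ) : 𝓞 F)) = 1 := by
    have h1 : (algebraMap (𝓞 F) F ((D⁻¹ : (𝓞 F)ˣ) : 𝓞 F)) * (algebraMap (𝓞 F) F (D : 𝓞 F)) = 1 := by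
      rw [← map_mul, ← Units.val_mul, inv_mul_cancel, Units.val_one, map_one]
    have h2 := congrArg (Algebra.norm K) h1
    rw [map_mul, hD, mul_one, map_one] at h2
    exact h2
  obtain ⟨ε, hε0, hε⟩ := groupCohomology.exists_mul_galRestrict_of_norm_eq_one
    (A := 𝓞 K) (B := 𝓞 F) hτ hD'
  refine ⟨ε, hε0, ?_⟩
  calc galRestrict (𝓞 K) K F (𝓞 F) τ ε
      = D * ((D⁻¹ : (𝓞 F)ˣ) * galRestrict (𝓞 K) K F (𝓞 F) τ ε) := by
        rw [← mul_assoc, ← Units.val_mul, mul_inv_cancel, Units.val_one, one_mul]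
    _ = D * ε := by rw [hε]

end Hilbert

section Prod

variable (p : ℕ) {K F : Type} [Field K] [NumberField K] [Field F] [NumberField F] [Algebra K F]

/-- The product `∏_{0<a<p} (1 - zeta^a * zq)^(n a)` in `𝓞 F`. -/
noncomputable def liftProd (zeta : 𝓞 K) (zq : 𝓞 F) (n : ℕ → ℕ) : 𝓞 F :=
  ∏ a ∈ Finset.Ioo 0 p, (1 - algebraMap (𝓞 K) (𝓞 F) (zeta ^ a) * zq) ^ n a

omit [NumberField K] [NumberField F] in
theorem liftProd_sub_mem (zeta : 𝓞 K) (zq : 𝓞 F) (n : ℕ → ℕ) :
    liftProd p zeta zq n - algebraMap (𝓞 K) (𝓞 F) (xiProd p zeta n) ∈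
      Ideal.span {1 - zq} := by
  have h1 : Ideal.Quotient.mk (Ideal.span {1 - zq}) zq = 1 := by
    have : Ideal.Quotient.mk (Ideal.span {1 - zq}) (1 - zq) = 0 :=
      Ideal.Quotient.eq_zero_iff_mem.2 (Ideal.subset_span rfl)
    rw [map_sub, map_one, sub_eq_zero] at this
    exact this.symm
  rw [← Ideal.Quotient.eq]
  simp only [liftProd, xiProd, map_prod, map_pow, map_sub, map_one, map_mul, h1, mul_one]

end Prod

section UnitProd

variable (p q : ℕ) [hp : Fact p.Prime] [hq : Fact q.Prime] (K F : Type) [Field K] [NumberField K]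
  [IsCyclotomicExtension {p} ℚ K] [Field F] [NumberField F] [Algebra K F]
  [IsCyclotomicExtension {q} K F]

variable {q F} in
theorem isUnit_liftProd (hpq : p ≠ q) (hdvd : p ∣ q - 1) {zeta : 𝓞 K}
    (hz : IsPrimitiveRoot zeta p) {zq : 𝓞 F} (hzq : IsPrimitiveRoot zq q) (n : ℕ → ℕ) :
    IsUnit (liftProd p zeta zq n) := by
  unfold liftProd
  refine Finset.prod_induction _ (fun x => IsUnit x) (fun a b ha hb => ha.mul hb) isUnit_one ?_
  intro a ha
  rw [Finset.mem_Ioo] at ha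
  refine IsUnit.pow _ (isUnit_one_sub_mul p K hpq hdvd hzq (zeta ^ a) ?_ ?_)
  · rw [← pow_mul, mul_comm, pow_mul, hz.pow_eq_one, one_pow]
  · exact hz.pow_ne_one_of_pos_of_lt ha.1.ne' ha.2

variable {q F} in
theorem norm_liftProd (hpq : p ≠ q) (hdvd : p ∣ q - 1) {zeta : 𝓞 K}
    (hz : IsPrimitiveRoot zeta p) {zq : 𝓞 F} (hzq : IsPrimitiveRoot zq q) (n : ℕ → ℕ) :
    Algebra.norm K (algebraMap (𝓞 F) F (liftProd p zeta zq n)) = 1 := by
  unfold liftProd
  rw [map_prod, map_prod]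
  refine Finset.prod_eq_one ?_
  intro a ha
  rw [Finset.mem_Ioo] at ha
  rw [map_pow, map_pow, norm_one_sub_mul_int p K hpq hdvd hzq (zeta ^ a) ?_ ?_, one_pow]
  · rw [← pow_mul, mul_comm, pow_mul, hz.pow_eq_one, one_pow]
  · exact hz.pow_ne_one_of_pos_of_lt ha.1.ne' ha.2

end UnitProd

end Fermat.Agent.S14.Thaine.Relation
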